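import Mathlib

/-!
# Weak Chebotarev (helper40), part 1: the cyclic sieve

Pure group theory / elementary number theory:

* `prod_one_sub_eq_sum_powerset` : `∏ (1 - f i) = ∑_t (-1)^|t| ∏_{i ∈ t} f i`;
* `coprime_indicator` : inclusion-exclusion for the indicator of `Nat.Coprime k m`;
* `sieveConst m = ∏_{r ∣ m prime} (1 - 1/r) > 0` and its expansion;
* in a finite cyclic group with generator `g`: `g ^ k ∈ zpowers (g ^ d) ↔ d ∣ k` (for `d ∣ #G`)
  and `g ^ k` is a generator if `k` is prime to `#G`.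
-/

set_option autoImplicit false

open Finset

namespace Fermat.Agent.Cheb.helper40

theorem prod_one_sub_eq_sum_powerset {ι : Type*} [DecidableEq ι] (s : Finset ι) (f : ι → ℝ) :
    ∏ i ∈ s, (1 - f i) = ∑ t ∈ s.powerset, (-1) ^ t.card * ∏ i ∈ t, f i := by
  have h := Finset.prod_add (fun i => -f i) (fun _ => (1 : ℝ)) s
  have h1 : ∏ i ∈ s, (1 - f i) = ∏ i ∈ s, (-f i + 1) :=
    Finset.prod_congr rfl fun i _ => by ring
  rw [h1, h]
  refine Finset.sum_congr rfl fun t _ => ?_
  rw [Finset.prod_const_one, mul_one, Finset.prod_neg]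

/-- `k` and `m` are coprime iff no prime factor of `m` divides `k`. -/
theorem coprime_iff_forall_primeFactors {k m : ℕ} (hm : m ≠ 0) :
    Nat.Coprime k m ↔ ∀ r ∈ m.primeFactors, ¬ r ∣ k := by
  constructor
  · intro h r hr hrk
    have hrp := Nat.prime_of_mem_primeFactors hr
    have hrm := Nat.dvd_of_mem_primeFactors hr
    have := Nat.dvd_gcd hrk hrm
    rw [h] at this
    exact hrp.one_lt.ne' (Nat.dvd_one.mp this)
  · intro h
    rw [Nat.Coprime, Nat.eq_one_iff_not_exists_prime_dvd]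
    intro r hr hrd
    exact h r (Nat.mem_primeFactors.mpr ⟨hr, hrd.trans (Nat.gcd_dvd_right k m), hm⟩)
      (hrd.trans (Nat.gcd_dvd_left k m))

theorem prod_dvd_iff_of_subset_primeFactors {k m : ℕ} {t : Finset ℕ}
    (ht : t ⊆ m.primeFactors) : (∏ r ∈ t, r) ∣ k ↔ ∀ r ∈ t, r ∣ k := by
  constructor
  · intro h r hr
    exact (Finset.dvd_prod_of_mem _ hr).trans h
  · intro h
    exact Finset.prod_primes_dvd k
      (fun r hr => (Nat.prime_of_mem_primeFactors (ht hr)).prime) h

/-- Inclusion-exclusion for the indicator of coprimality. -/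
theorem coprime_indicator (k m : ℕ) (hm : m ≠ 0) :
    (if Nat.Coprime k m then (1 : ℝ) else 0) =
      ∑ t ∈ m.primeFactors.powerset, (-1) ^ t.card * (if (∏ r ∈ t, r) ∣ k then 1 else 0) := by
  have h1 : (if Nat.Coprime k m then (1 : ℝ) else 0) =
      ∏ r ∈ m.primeFactors, (1 - (if r ∣ k then (1 : ℝ) else 0)) := by
    by_cases h : Nat.Coprime k m
    · rw [if_pos h]
      symm
      apply Finset.prod_eq_one
      intro r hr
      rw [if_neg ((coprime_iff_forall_primeFactors hm).mp h r hr), sub_zero]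
    · rw [if_neg h]
      symm
      rw [coprime_iff_forall_primeFactors hm] at h
      push Not at h
      obtain ⟨r, hr, hrk⟩ := h
      apply Finset.prod_eq_zero hr
      rw [if_pos hrk, sub_self]
  rw [h1, prod_one_sub_eq_sum_powerset]
  refine Finset.sum_congr rfl fun t ht => ?_
  congr 1
  have ht' : t ⊆ m.primeFactors := Finset.mem_powerset.mp ht
  by_cases h : (∏ r ∈ t, r) ∣ k
  · rw [if_pos h]
    apply Finset.prod_eq_one
    intro r hr
    rw [if_pos ((prod_dvd_iff_of_subset_primeFactors ht').mp h r hr)]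
  · rw [if_neg h]
    rw [prod_dvd_iff_of_subset_primeFactors ht'] at h
    push Not at h
    obtain ⟨r, hr, hrk⟩ := h
    apply Finset.prod_eq_zero hr
    rw [if_neg hrk]

/-- The sieve constant `∏_{r ∣ m} (1 - 1/r)` (`= φ(m)/m`). -/
noncomputable def sieveConst (m : ℕ) : ℝ := ∏ r ∈ m.primeFactors, (1 - 1 / (r : ℝ))

theorem sieveConst_pos (m : ℕ) : 0 < sieveConst m := by
  unfold sieveConst
  apply Finset.prod_pos
  intro r hr
  have h2 : (2 : ℝ) ≤ r := by exact_mod_cast (Nat.prime_of_mem_primeFactors hr).two_le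
  have : 1 / (r : ℝ) ≤ 1 / 2 := one_div_le_one_div_of_le (by norm_num) h2
  linarith

theorem sieveConst_eq_sum (m : ℕ) :
    sieveConst m = ∑ t ∈ m.primeFactors.powerset,
      (-1) ^ t.card * (1 / ((∏ r ∈ t, r : ℕ) : ℝ)) := by
  unfold sieveConst
  rw [prod_one_sub_eq_sum_powerset]
  refine Finset.sum_congr rfl fun t _ => ?_
  congr 1
  rw [Nat.cast_prod, Finset.prod_div_distrib, Finset.prod_const_one]

section cyclic

variable {G : Type*} [Group G] [Finite G]

theorem orderOf_eq_card_of_generator (g : G) (hg : ∀ x : G, x ∈ Subgroup.zpowers g) :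
    orderOf g = Nat.card G :=
  orderOf_eq_card_of_forall_mem_zpowers hg

theorem exists_pow_eq_of_generator (g : G) (hg : ∀ x : G, x ∈ Subgroup.zpowers g) (x : G) :
    ∃ k : ℕ, g ^ k = x := by
  have h := hg x
  rw [← mem_powers_iff_mem_zpowers] at h
  exact h

theorem pow_mem_zpowers_pow_iff (g : G) (hg : ∀ x : G, x ∈ Subgroup.zpowers g) {d : ℕ}
    (hd : d ∣ Nat.card G) (k : ℕ) : g ^ k ∈ Subgroup.zpowers (g ^ d) ↔ d ∣ k := by
  constructor
  · intro h
    obtain ⟨z, hz⟩ := Subgroup.mem_zpowers_iff.mp h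
    have h1 : g ^ ((d : ℤ) * z - k) = 1 := by
      rw [zpow_sub, zpow_mul, zpow_natCast, zpow_natCast, hz, mul_inv_cancel]
    have h2 : (orderOf g : ℤ) ∣ (d : ℤ) * z - k := orderOf_dvd_iff_zpow_eq_one.mpr h1
    rw [orderOf_eq_card_of_generator g hg] at h2
    have h3 : (d : ℤ) ∣ (d : ℤ) * z - k := (Int.natCast_dvd_natCast.mpr hd).trans h2
    have h4 : (d : ℤ) ∣ (k : ℤ) := by
      have := (dvd_sub_right (dvd_mul_right (d : ℤ) z)).mp h3
      exact this
    exact Int.natCast_dvd_natCast.mp h4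
  · rintro ⟨j, rfl⟩
    rw [pow_mul]
    exact Subgroup.pow_mem _ (Subgroup.mem_zpowers _) _

theorem mem_zpowers_pow_of_coprime (g : G) (hg : ∀ x : G, x ∈ Subgroup.zpowers g) {k : ℕ}
    (hk : Nat.Coprime k (Nat.card G)) (x : G) : x ∈ Subgroup.zpowers (g ^ k) := by
  have h1 : orderOf (g ^ k) = Nat.card G := by
    rw [← orderOf_eq_card_of_generator g hg]
    apply Nat.Coprime.orderOf_pow
    rw [orderOf_eq_card_of_generator g hg]
    exact hk.symm
  have h2 : Nat.card (Subgroup.zpowers (g ^ k)) = Nat.card G := by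
    rw [Nat.card_zpowers, h1]
  have h3 : Subgroup.zpowers (g ^ k) = ⊤ := Subgroup.eq_top_of_card_eq _ h2
  rw [h3]
  exact Subgroup.mem_top x

theorem card_zpowers_pow (g : G) (hg : ∀ x : G, x ∈ Subgroup.zpowers g) {d : ℕ}
    (hd : d ∣ Nat.card G) : d * Nat.card (Subgroup.zpowers (g ^ d)) = Nat.card G := by
  have hpos : 0 < Nat.card G := Nat.card_pos
  have hd0 : d ≠ 0 := by
    rintro rfl
    rw [zero_dvd_iff] at hd
    omega
  rw [Nat.card_zpowers, orderOf_pow' g hd0, orderOf_eq_card_of_generator g hg,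
    Nat.gcd_eq_right hd]
  exact Nat.mul_div_cancel' hd

end cyclic

end Fermat.Agent.Cheb.helper40
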