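import Mathlib
import Fermat.Agent.S14.helper12_ArtinFunct
import Fermat.Agent.S14.helper52_PrimeDensity

/-!
# Weak Chebotarev (helper40), part 2: splitting in a subextension and the Frobenius

Let `K/E` be a Galois extension of number fields, `F` an intermediate field which is Galois over
`E`, `𝔭` a prime of `E` unramified in `F`, `P` a prime of `K` over `𝔭` and `σ ∈ Gal(K/E)` an
arithmetic Frobenius at `P`.  Then `𝔭` splits completely in `F` iff `σ` fixes `F`:

* `mem_splitSet_iff_mem_fixingSubgroup`.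
-/

set_option autoImplicit false
set_option linter.unusedSectionVars false
set_option linter.style.haveILetI false

open NumberField Ideal IsDedekindDomain
open scoped Pointwise

namespace Fermat.Agent.Cheb.helper40

open Fermat.Agent.S14

section inertia

variable (E K : Type*) [Field E] [NumberField E] [Field K] [NumberField K] [Algebra E K]
  [IsGalois E K]

/-- At a prime of ramification index one the inertia group is trivial. -/
theorem inertia_trivial_of_eNum_eq_one (𝔭 : HeightOneSpectrum (𝓞 E))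
    (h : helper52.eNum E K 𝔭 = 1) (P : Ideal (𝓞 K)) [P.IsPrime]
    (hP : P.under (𝓞 E) = 𝔭.asIdeal) :
    ∀ σ : Gal(K/E), (∀ x : 𝓞 K, σ • x - x ∈ P) → σ = 1 := by
  haveI : P.LiesOver 𝔭.asIdeal := ⟨hP.symm⟩
  haveI : 𝔭.asIdeal.IsPrime := 𝔭.isPrime
  have h1 := Ideal.card_inertia_eq_ramificationIdxIn (G := Gal(K/E)) 𝔭.asIdeal P
  unfold helper52.eNum at h
  rw [h] at h1
  have h2 : Ideal.inertia Gal(K/E) P = ⊥ := Subgroup.eq_bot_of_card_eq _ h1
  intro σ hσ
  have h3 : σ ∈ Ideal.inertia Gal(K/E) P := fun x => hσ x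
  rw [h2] at h3
  exact Subgroup.mem_bot.mp h3

end inertia

section dictionary

variable {E K : Type*} [Field E] [NumberField E] [Field K] [NumberField K] [Algebra E K]
  [IsGalois E K]

/-- **Dictionary.** A prime `𝔭` of `E`, unramified in the Galois subextension `F/E` of `K/E`,
splits completely in `F` iff a Frobenius of `K/E` above `𝔭` fixes `F`. -/
theorem mem_splitSet_iff_mem_fixingSubgroup (F : IntermediateField E K) [IsGalois E F]
    (𝔭 : HeightOneSpectrum (𝓞 E)) (hF : 𝔭 ∉ helper52.ramSet E F)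
    (P : Ideal (𝓞 K)) [P.IsPrime] (hP0 : P ≠ ⊥) (hP : P.under (𝓞 E) = 𝔭.asIdeal)
    (σ : Gal(K/E)) (hσ : IsArithFrobAt (𝓞 E) σ P) :
    𝔭 ∈ helper34.splitSet E F ↔ σ ∈ F.fixingSubgroup := by
  haveI : 𝔭.asIdeal.IsPrime := 𝔭.isPrime
  -- the prime of `F` below `P`
  haveI h𝔮prime : (P.under (𝓞 F)).IsPrime := Ideal.IsPrime.under (𝓞 F) P
  have h𝔮0 : P.under (𝓞 F) ≠ ⊥ := Ideal.under_ne_bot (𝓞 F) hP0
  have h𝔮 : (P.under (𝓞 F)).under (𝓞 E) = 𝔭.asIdeal := by
    rw [Ideal.under_under, hP]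
  haveI : (P.under (𝓞 F)).LiesOver 𝔭.asIdeal := ⟨h𝔮.symm⟩
  -- the restriction of `σ`
  have hcompat : ∀ y : 𝓞 F, algebraMap (𝓞 F) (𝓞 K) (AlgEquiv.restrictNormalHom F σ • y) =
      σ • (algebraMap (𝓞 F) (𝓞 K) y) := by
    intro y
    apply NumberField.RingOfIntegers.ext
    exact AlgEquiv.restrictNormal_commutes σ F (y : F)
  have hσF : IsArithFrobAt (𝓞 E) (AlgEquiv.restrictNormalHom F σ) (P.under (𝓞 F)) :=
    helper12.isArithFrobAt_under_of_card_eq (A := 𝓞 E) (A' := 𝓞 E) (B := 𝓞 F) (B' := 𝓞 K)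
      σ (AlgEquiv.restrictNormalHom F σ) hcompat P hσ rfl
  have heNum : helper52.eNum E F 𝔭 = 1 := by
    by_contra h
    exact hF h
  have hunr := inertia_trivial_of_eNum_eq_one E F 𝔭 heNum (P.under (𝓞 F)) h𝔮
  have key1 := helper12.ncard_primesOver_eq_finrank_iff E F 𝔭.asIdeal 𝔭.ne_bot
    (P.under (𝓞 F)) hunr
  have key2 := helper12.isArithFrobAt_one_iff E F (P.under (𝓞 F)) h𝔮0
  rw [h𝔮] at key2
  have key3 : σ ∈ F.fixingSubgroup ↔ AlgEquiv.restrictNormalHom F σ = 1 := by
    rw [← IntermediateField.restrictNormalHom_ker, MonoidHom.mem_ker]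
  have key4 : AlgEquiv.restrictNormalHom F σ = 1 ↔
      IsArithFrobAt (𝓞 E) (1 : Gal(F/E)) (P.under (𝓞 F)) := by
    constructor
    · intro h
      rw [← h]
      exact hσF
    · intro h
      have h2 := hσF.mul_inv_mem_inertia h
      have h3 := hunr _ (fun x => h2 x)
      simpa using h3
  rw [key3, key4, key2, ← key1]
  rfl

end dictionary

end Fermat.Agent.Cheb.helper40
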