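import Mathlib
import Fermat.Agent.Cheb.helper40_CyclicSieve
import Fermat.Agent.Cheb.helper40_SplitFrob
import Fermat.Agent.S14.helper40_DegreeTwo

/-!
# Weak Chebotarev (helper40), part 3: cyclic extensions

Let `K/E` be a cyclic extension of number fields with group generated by `g`.  Outside any finite
set of primes of `E` there is a prime `𝔭` of absolute degree one whose Frobenius in `Gal(K/E)`
generates the Galois group:

* `exists_prime_frobAt_generates`.

The proof is the classical one (Frobenius density theorem): the primes of degree one splitting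
completely in the subextension of degree `d` have "density" `1/d`
(`helper52.split_sum_sub_log_bounded`), and inclusion-exclusion over the squarefree divisors of
`[K:E]` gives the density `∏_{r ∣ [K:E]} (1 - 1/r) > 0` for the primes whose Frobenius is a
generator.
-/

set_option autoImplicit false
set_option linter.unusedSectionVars false
set_option linter.unusedVariables false
set_option linter.style.haveILetI false

open NumberField Ideal IsDedekindDomain Filter Topology
open scoped Pointwise Classical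

namespace Fermat.Agent.Cheb.helper40

open Fermat.Agent.S14

section sums

variable (E : Type*) [Field E] [NumberField E]

/-- The summand `N(𝔭)^(-s)`. -/
noncomputable abbrev pt (s : ℝ) (𝔭 : HeightOneSpectrum (𝓞 E)) : ℝ := S14.helper40.pterm E s 𝔭

theorem pt_nonneg (s : ℝ) (𝔭 : HeightOneSpectrum (𝓞 E)) : 0 ≤ pt E s 𝔭 :=
  (S14.helper40.pterm_pos E s 𝔭).le

theorem tsum_indicator_nonprime_le {s : ℝ} (hs : 1 ≤ s) :
    ∑' 𝔭, ({𝔭 : HeightOneSpectrum (𝓞 E) | ¬ (absNorm 𝔭.asIdeal).Prime}).indicator (pt E s) 𝔭 ≤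
      S14.helper40.degTwoBound E := by
  refine Real.tsum_le_of_sum_le (fun P => Set.indicator_nonneg (fun Q _ => pt_nonneg E s Q) P)
    fun t => ?_
  rw [Finset.sum_indicator_eq_sum_filter]
  exact S14.helper40.sum_pterm_le_degTwoBound E hs _ fun P hP => (Finset.mem_filter.mp hP).2

theorem tsum_indicator_finite_le {D : Set (HeightOneSpectrum (𝓞 E))} (hD : D.Finite) {s : ℝ}
    (hs : 1 ≤ s) : ∑' 𝔭, D.indicator (pt E s) 𝔭 ≤ (hD.toFinset.card : ℝ) := by
  refine Real.tsum_le_of_sum_le (fun P => Set.indicator_nonneg (fun Q _ => pt_nonneg E s Q) P)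
    fun t => ?_
  rw [Finset.sum_indicator_eq_sum_filter]
  have hsub : t.filter (fun P => P ∈ D) ⊆ hD.toFinset := by
    intro P hP
    exact hD.mem_toFinset.mpr (Finset.mem_filter.mp hP).2
  calc ∑ P ∈ t.filter (fun P => P ∈ D), pt E s P
      ≤ ∑ P ∈ hD.toFinset, pt E s P :=
        Finset.sum_le_sum_of_subset_of_nonneg hsub fun P _ _ => pt_nonneg E s P
    _ ≤ ∑ P ∈ hD.toFinset, (1 : ℝ) :=
        Finset.sum_le_sum fun P _ => (S14.helper40.pterm_le_half E hs P).trans (by norm_num)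
    _ = (hD.toFinset.card : ℝ) := by simp

/-- The primes of degree one outside `Bad`. -/
def goodSet (Bad : Set (HeightOneSpectrum (𝓞 E))) : Set (HeightOneSpectrum (𝓞 E)) :=
  {𝔭 | (absNorm 𝔭.asIdeal).Prime ∧ 𝔭 ∉ Bad}

theorem summable_indicator_pt (A : Set (HeightOneSpectrum (𝓞 E))) {s : ℝ} (hs : 1 < s) :
    Summable fun 𝔭 => A.indicator (pt E s) 𝔭 :=
  (S14.helper40.summable_pterm E hs).indicator A

/-- Restricting a sum to the good primes changes it by a bounded amount. -/
theorem tsum_indicator_inter_goodSet (Bad : Set (HeightOneSpectrum (𝓞 E))) (hBad : Bad.Finite)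
    (A : Set (HeightOneSpectrum (𝓞 E))) {s : ℝ} (hs : 1 < s) :
    ∑' 𝔭, (goodSet E Bad ∩ A).indicator (pt E s) 𝔭 ≤ ∑' 𝔭, A.indicator (pt E s) 𝔭 ∧
    ∑' 𝔭, A.indicator (pt E s) 𝔭 ≤ ∑' 𝔭, (goodSet E Bad ∩ A).indicator (pt E s) 𝔭 +
      (S14.helper40.degTwoBound E + (hBad.toFinset.card : ℝ)) := by
  constructor
  · refine (summable_indicator_pt E _ hs).tsum_le_tsum (fun 𝔭 => ?_) (summable_indicator_pt E _ hs)
    exact Set.indicator_le_indicator_of_subset Set.inter_subset_right
      (fun Q => pt_nonneg E s Q) 𝔭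
  · have h1 : ∀ 𝔭, A.indicator (pt E s) 𝔭 ≤ (goodSet E Bad ∩ A).indicator (pt E s) 𝔭 +
        ({𝔭 : HeightOneSpectrum (𝓞 E) | ¬ (absNorm 𝔭.asIdeal).Prime}).indicator (pt E s) 𝔭 +
        Bad.indicator (pt E s) 𝔭 := by
      intro 𝔭
      have hA := Set.indicator_nonneg (s := goodSet E Bad ∩ A) (fun Q _ => pt_nonneg E s Q) 𝔭
      have hB := Set.indicator_nonneg
        (s := {𝔭 : HeightOneSpectrum (𝓞 E) | ¬ (absNorm 𝔭.asIdeal).Prime})
        (fun Q _ => pt_nonneg E s Q) 𝔭
      have hC := Set.indicator_nonneg (s := Bad) (fun Q _ => pt_nonneg E s Q) 𝔭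
      by_cases hx : 𝔭 ∈ A
      · rw [Set.indicator_of_mem hx]
        by_cases h1 : (absNorm 𝔭.asIdeal).Prime
        · by_cases h2 : 𝔭 ∈ Bad
          · rw [Set.indicator_of_mem h2]; linarith
          · have : 𝔭 ∈ goodSet E Bad ∩ A := ⟨⟨h1, h2⟩, hx⟩
            rw [Set.indicator_of_mem this]; linarith
        · have : 𝔭 ∈ {𝔭 : HeightOneSpectrum (𝓞 E) | ¬ (absNorm 𝔭.asIdeal).Prime} := h1
          rw [Set.indicator_of_mem this]; linarith
      · rw [Set.indicator_of_notMem hx]; linarith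
    have h2 := (summable_indicator_pt E A hs).tsum_le_tsum h1
      (((summable_indicator_pt E _ hs).add (summable_indicator_pt E _ hs)).add
        (summable_indicator_pt E _ hs))
    rw [((summable_indicator_pt E _ hs).add (summable_indicator_pt E _ hs)).tsum_add
      (summable_indicator_pt E _ hs),
      (summable_indicator_pt E _ hs).tsum_add (summable_indicator_pt E _ hs)] at h2
    have h3 := tsum_indicator_nonprime_le E hs.le
    have h4 := tsum_indicator_finite_le E hBad hs.le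
    linarith

end sums

section estimate

variable {E K : Type*} [Field E] [NumberField E] [Field K] [NumberField K] [Algebra E K]

/-- The good primes splitting completely in a Galois extension `F/E` of degree `d` have
prime sum `(1/d) log (1/(s-1)) + O(1)`. -/
theorem exists_bound_good_split (F : Type*) [Field F] [NumberField F] [Algebra E F]
    [IsGalois E F] (Bad : Set (HeightOneSpectrum (𝓞 E))) (hBad : Bad.Finite) :
    ∃ B : ℝ, ∀ s : ℝ, 1 < s → s ≤ 2 →
      |(Module.finrank E F : ℝ) *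
          ∑' 𝔭, (goodSet E Bad ∩ helper34.splitSet E F).indicator (pt E s) 𝔭 -
        Real.log (1 / (s - 1))| ≤ B := by
  obtain ⟨B₀, hB₀⟩ := helper52.split_sum_sub_log_bounded E F
  refine ⟨B₀ + (Module.finrank E F : ℝ) *
    (S14.helper40.degTwoBound E + (hBad.toFinset.card : ℝ)), fun s hs hs2 => ?_⟩
  have h0 := hB₀ s hs hs2
  have h1 : ∑' 𝔭 : helper34.splitSet E F, (absNorm 𝔭.1.asIdeal : ℝ) ^ (-s) =
      ∑' 𝔭, (helper34.splitSet E F).indicator (pt E s) 𝔭 :=
    tsum_subtype (helper34.splitSet E F) (pt E s)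
  rw [h1] at h0
  obtain ⟨h2, h3⟩ := tsum_indicator_inter_goodSet E Bad hBad (helper34.splitSet E F) hs
  have hd : (0 : ℝ) ≤ (Module.finrank E F : ℝ) := Nat.cast_nonneg _
  have h4 := mul_le_mul_of_nonneg_left h2 hd
  have h5 := mul_le_mul_of_nonneg_left h3 hd
  rw [mul_add] at h5
  rw [abs_le] at h0 ⊢
  constructor <;> linarith [h0.1, h0.2]

end estimate

section cyclic

theorem normal_of_generator {G : Type*} [Group G] (g : G)
    (hg : ∀ x : G, x ∈ Subgroup.zpowers g) (H : Subgroup G) : H.Normal := by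
  have hcomm : ∀ a b : G, a * b = b * a := by
    intro a b
    obtain ⟨i, rfl⟩ := Subgroup.mem_zpowers_iff.mp (hg a)
    obtain ⟨j, rfl⟩ := Subgroup.mem_zpowers_iff.mp (hg b)
    rw [← zpow_add, ← zpow_add, add_comm]
  constructor
  intro n hn x
  rw [hcomm x n, mul_assoc, mul_inv_cancel, mul_one]
  exact hn

variable {E K : Type*} [Field E] [NumberField E] [Field K] [NumberField K] [Algebra E K]
  [IsGalois E K]

theorem finrank_fixedField_zpowers_pow (g : Gal(K/E))
    (hg : ∀ σ : Gal(K/E), σ ∈ Subgroup.zpowers g) {d : ℕ} (hd : d ∣ Nat.card Gal(K/E)) :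
    Module.finrank E (IntermediateField.fixedField (Subgroup.zpowers (g ^ d))) = d := by
  have h1 := IntermediateField.finrank_fixedField_eq_card (F := E) (E := K)
    (H := Subgroup.zpowers (g ^ d))
  have h2 := Module.finrank_mul_finrank E
    (IntermediateField.fixedField (Subgroup.zpowers (g ^ d))) K
  have h3 := IsGalois.card_aut_eq_finrank E K
  have h4 := card_zpowers_pow g hg hd
  have hpos : 0 < Nat.card (Subgroup.zpowers (g ^ d)) := Nat.card_pos
  rw [h1, ← h3, ← h4] at h2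
  exact Nat.eq_of_mul_eq_mul_right hpos h2

/-- **Weak Chebotarev for cyclic extensions.**  Let `K/E` be a cyclic extension of number fields.
Outside any finite set of primes of `E` there is a prime of absolute degree one whose Frobenius
generates `Gal(K/E)`. -/
theorem exists_prime_frobAt_generates (g : Gal(K/E))
    (hg : ∀ σ : Gal(K/E), σ ∈ Subgroup.zpowers g)
    (Exc : Set (HeightOneSpectrum (𝓞 E))) (hExc : Exc.Finite) :
    ∃ 𝔭 : HeightOneSpectrum (𝓞 E), 𝔭 ∉ Exc ∧ (absNorm 𝔭.asIdeal).Prime ∧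
      ∀ σ : Gal(K/E), σ ∈ Subgroup.zpowers (frobAt E K 𝔭.asIdeal) := by
  have hm0 : Nat.card Gal(K/E) ≠ 0 := Nat.card_pos.ne'
  haveI hnormal : ∀ H : Subgroup Gal(K/E), H.Normal := normal_of_generator g hg
  -- discrete logarithms of the Frobenius elements
  choose k hk using fun 𝔭 : HeightOneSpectrum (𝓞 E) =>
    exists_pow_eq_of_generator g hg (frobAt E K 𝔭.asIdeal)
  -- the squarefree divisors
  have hdv : ∀ t ∈ (Nat.card Gal(K/E)).primeFactors.powerset,
      (∏ r ∈ t, r) ∣ Nat.card Gal(K/E) := by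
    intro t ht
    have ht' := Finset.mem_powerset.mp ht
    exact Finset.prod_primes_dvd _
      (fun r hr => (Nat.prime_of_mem_primeFactors (ht' hr)).prime)
      (fun r hr => Nat.dvd_of_mem_primeFactors (ht' hr))
  -- the bad primes
  have hBadfin : (Exc ∪ ⋃ t ∈ (Nat.card Gal(K/E)).primeFactors.powerset,
      helper52.ramSet E (IntermediateField.fixedField
        (Subgroup.zpowers (g ^ (∏ r ∈ t, r))))).Finite :=
    hExc.union (Set.Finite.biUnion (Finset.finite_toSet _) fun t _ => helper52.ramSet_finite E _)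
  obtain ⟨Bad, hBaddef⟩ : ∃ Bad : Set (HeightOneSpectrum (𝓞 E)),
      Bad = Exc ∪ ⋃ t ∈ (Nat.card Gal(K/E)).primeFactors.powerset,
        helper52.ramSet E (IntermediateField.fixedField
          (Subgroup.zpowers (g ^ (∏ r ∈ t, r)))) := ⟨_, rfl⟩
  rw [← hBaddef] at hBadfin
  -- the dictionary
  have hdict : ∀ t ∈ (Nat.card Gal(K/E)).primeFactors.powerset, ∀ 𝔭 ∈ goodSet E Bad,
      (𝔭 ∈ helper34.splitSet E (IntermediateField.fixedField
        (Subgroup.zpowers (g ^ (∏ r ∈ t, r)))) ↔ (∏ r ∈ t, r) ∣ k 𝔭) := by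
    intro t ht 𝔭 h𝔭
    obtain ⟨P, hPprime, hP0, hP, hfrob⟩ :=
      helper12.exists_isArithFrobAt_frobAt E K 𝔭.asIdeal 𝔭.ne_bot
    haveI := hPprime
    have hram : 𝔭 ∉ helper52.ramSet E (IntermediateField.fixedField
        (Subgroup.zpowers (g ^ (∏ r ∈ t, r)))) := by
      intro h
      apply h𝔭.2
      rw [hBaddef]
      exact Or.inr (Set.mem_biUnion ht h)
    rw [mem_splitSet_iff_mem_fixingSubgroup _ 𝔭 hram P hP0 hP _ hfrob,
      IntermediateField.fixingSubgroup_fixedField, ← hk 𝔭]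
    exact pow_mem_zpowers_pow_iff g hg (hdv t ht) (k 𝔭)
  -- the analytic bounds
  choose B hB using fun t : Finset ℕ => exists_bound_good_split (E := E)
    (IntermediateField.fixedField (Subgroup.zpowers (g ^ (∏ r ∈ t, r)))) Bad hBadfin
  -- the target set
  obtain ⟨T, hT⟩ : ∃ T : Set (HeightOneSpectrum (𝓞 E)),
      T = {𝔭 | 𝔭 ∈ goodSet E Bad ∧ Nat.Coprime (k 𝔭) (Nat.card Gal(K/E))} := ⟨_, rfl⟩
  have hind : ∀ (s : ℝ) (𝔭 : HeightOneSpectrum (𝓞 E)), T.indicator (pt E s) 𝔭 =
      ∑ t ∈ (Nat.card Gal(K/E)).primeFactors.powerset, (-1 : ℝ) ^ t.card *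
        (goodSet E Bad ∩ helper34.splitSet E (IntermediateField.fixedField
          (Subgroup.zpowers (g ^ (∏ r ∈ t, r))))).indicator (pt E s) 𝔭 := by
    intro s 𝔭
    by_cases h𝔭 : 𝔭 ∈ goodSet E Bad
    · have h1 : T.indicator (pt E s) 𝔭 =
          pt E s 𝔭 * (if Nat.Coprime (k 𝔭) (Nat.card Gal(K/E)) then (1 : ℝ) else 0) := by
        by_cases hc : Nat.Coprime (k 𝔭) (Nat.card Gal(K/E))
        · have : 𝔭 ∈ T := by rw [hT]; exact ⟨h𝔭, hc⟩
          rw [Set.indicator_of_mem this, if_pos hc, mul_one]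
        · have : 𝔭 ∉ T := by rw [hT]; exact fun h => hc h.2
          rw [Set.indicator_of_notMem this, if_neg hc, mul_zero]
      rw [h1, coprime_indicator (k 𝔭) _ hm0, Finset.mul_sum]
      refine Finset.sum_congr rfl fun t ht => ?_
      by_cases hd : (∏ r ∈ t, r) ∣ k 𝔭
      · have : 𝔭 ∈ goodSet E Bad ∩ helper34.splitSet E (IntermediateField.fixedField
            (Subgroup.zpowers (g ^ (∏ r ∈ t, r)))) := ⟨h𝔭, (hdict t ht 𝔭 h𝔭).mpr hd⟩
        rw [Set.indicator_of_mem this, if_pos hd]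
        ring
      · have : 𝔭 ∉ goodSet E Bad ∩ helper34.splitSet E (IntermediateField.fixedField
            (Subgroup.zpowers (g ^ (∏ r ∈ t, r)))) := fun h => hd ((hdict t ht 𝔭 h𝔭).mp h.2)
        rw [Set.indicator_of_notMem this, if_neg hd]
        ring
    · have h1 : 𝔭 ∉ T := by rw [hT]; exact fun h => h𝔭 h.1
      rw [Set.indicator_of_notMem h1]
      symm
      apply Finset.sum_eq_zero
      intro t _
      have : 𝔭 ∉ goodSet E Bad ∩ helper34.splitSet E (IntermediateField.fixedField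
          (Subgroup.zpowers (g ^ (∏ r ∈ t, r)))) := fun h => h𝔭 h.1
      rw [Set.indicator_of_notMem this, mul_zero]
  have htsum : ∀ s : ℝ, 1 < s → ∑' 𝔭, T.indicator (pt E s) 𝔭 =
      ∑ t ∈ (Nat.card Gal(K/E)).primeFactors.powerset, (-1 : ℝ) ^ t.card *
        ∑' 𝔭, (goodSet E Bad ∩ helper34.splitSet E (IntermediateField.fixedField
          (Subgroup.zpowers (g ^ (∏ r ∈ t, r))))).indicator (pt E s) 𝔭 := by
    intro s hs
    rw [tsum_congr (hind s), Summable.tsum_finsetSum]
    · refine Finset.sum_congr rfl fun t _ => ?_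
      rw [tsum_mul_left]
    · intro t _
      exact (summable_indicator_pt E _ hs).mul_left _
  -- the lower bound
  have hlow : ∀ s : ℝ, 1 < s → s ≤ 2 →
      sieveConst (Nat.card Gal(K/E)) * Real.log (1 / (s - 1)) -
        ∑ t ∈ (Nat.card Gal(K/E)).primeFactors.powerset, |B t| ≤
      ∑' 𝔭, T.indicator (pt E s) 𝔭 := by
    intro s hs hs2
    rw [htsum s hs, sieveConst_eq_sum, Finset.sum_mul, ← Finset.sum_sub_distrib]
    refine Finset.sum_le_sum fun t ht => ?_
    have hd := finrank_fixedField_zpowers_pow g hg (hdv t ht)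
    have h1 := hB t s hs hs2
    rw [hd] at h1
    have hdpos : (1 : ℝ) ≤ ((∏ r ∈ t, r : ℕ) : ℝ) := by
      have : 0 < ∏ r ∈ t, r := Nat.pos_of_ne_zero (fun h0 => by
        have := hdv t ht
        rw [h0, zero_dvd_iff] at this
        exact hm0 this)
      exact_mod_cast this
    have hd0 : (0 : ℝ) < ((∏ r ∈ t, r : ℕ) : ℝ) := by linarith
    -- divide by `d`
    have h2 : |∑' 𝔭, (goodSet E Bad ∩ helper34.splitSet E (IntermediateField.fixedField
          (Subgroup.zpowers (g ^ (∏ r ∈ t, r))))).indicator (pt E s) 𝔭 -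
        1 / ((∏ r ∈ t, r : ℕ) : ℝ) * Real.log (1 / (s - 1))| ≤ |B t| := by
      have h3 : ∑' 𝔭, (goodSet E Bad ∩ helper34.splitSet E (IntermediateField.fixedField
            (Subgroup.zpowers (g ^ (∏ r ∈ t, r))))).indicator (pt E s) 𝔭 -
          1 / ((∏ r ∈ t, r : ℕ) : ℝ) * Real.log (1 / (s - 1)) =
          (((∏ r ∈ t, r : ℕ) : ℝ) * ∑' 𝔭, (goodSet E Bad ∩ helper34.splitSet E
            (IntermediateField.fixedField
            (Subgroup.zpowers (g ^ (∏ r ∈ t, r))))).indicator (pt E s) 𝔭 -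
            Real.log (1 / (s - 1))) / ((∏ r ∈ t, r : ℕ) : ℝ) := by
        field_simp
      rw [h3, abs_div, abs_of_pos hd0]
      calc _ ≤ |B t| / ((∏ r ∈ t, r : ℕ) : ℝ) := by
            apply div_le_div_of_nonneg_right _ hd0.le
            exact h1.trans (le_abs_self _)
        _ ≤ |B t| := div_le_self (abs_nonneg _) hdpos
    have h4 : |(-1 : ℝ) ^ t.card| = 1 := by
      rw [abs_pow, abs_neg, abs_one, one_pow]
    have h5 : |(-1 : ℝ) ^ t.card * (∑' 𝔭, (goodSet E Bad ∩ helper34.splitSet E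
          (IntermediateField.fixedField
          (Subgroup.zpowers (g ^ (∏ r ∈ t, r))))).indicator (pt E s) 𝔭 -
        1 / ((∏ r ∈ t, r : ℕ) : ℝ) * Real.log (1 / (s - 1)))| ≤ |B t| := by
      rw [abs_mul, h4, one_mul]
      exact h2
    have h6 := (abs_le.mp h5).1
    linarith
  -- the choice of `s`
  have hc := sieveConst_pos (Nat.card Gal(K/E))
  obtain ⟨C, hC⟩ : ∃ C : ℝ, C = ∑ t ∈ (Nat.card Gal(K/E)).primeFactors.powerset, |B t| :=
    ⟨_, rfl⟩
  have hC0 : 0 ≤ C := by
    rw [hC]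
    exact Finset.sum_nonneg fun t _ => abs_nonneg _
  rw [← hC] at hlow
  have hx0 : 0 < (C + 1) / sieveConst (Nat.card Gal(K/E)) := div_pos (by linarith) hc
  have hs1 : (1 : ℝ) < 1 + Real.exp (-((C + 1) / sieveConst (Nat.card Gal(K/E)))) := by
    linarith [Real.exp_pos (-((C + 1) / sieveConst (Nat.card Gal(K/E))))]
  have hs2 : 1 + Real.exp (-((C + 1) / sieveConst (Nat.card Gal(K/E)))) ≤ 2 := by
    have : Real.exp (-((C + 1) / sieveConst (Nat.card Gal(K/E)))) ≤ 1 :=
      Real.exp_le_one_iff.mpr (by linarith)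
    linarith
  have hL : Real.log (1 / (1 + Real.exp (-((C + 1) / sieveConst (Nat.card Gal(K/E)))) - 1)) =
      (C + 1) / sieveConst (Nat.card Gal(K/E)) := by
    rw [add_sub_cancel_left, one_div, Real.log_inv, Real.log_exp, neg_neg]
  have h7 := hlow _ hs1 hs2
  rw [hL, mul_div_cancel₀ _ hc.ne'] at h7
  have h8 : 0 < ∑' 𝔭, T.indicator
      (pt E (1 + Real.exp (-((C + 1) / sieveConst (Nat.card Gal(K/E)))))) 𝔭 := by linarith
  -- `T` is nonempty
  obtain ⟨𝔭, h𝔭⟩ : ∃ 𝔭, 𝔭 ∈ T := by
    by_contra hne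
    push Not at hne
    have : ∀ 𝔭, T.indicator
        (pt E (1 + Real.exp (-((C + 1) / sieveConst (Nat.card Gal(K/E)))))) 𝔭 = 0 :=
      fun 𝔭 => Set.indicator_of_notMem (hne 𝔭) _
    rw [tsum_congr this, tsum_zero] at h8
    exact lt_irrefl _ h8
  rw [hT] at h𝔭
  refine ⟨𝔭, ?_, h𝔭.1.1, ?_⟩
  · intro h
    apply h𝔭.1.2
    rw [hBaddef]
    exact Or.inl h
  · intro σ
    rw [← hk 𝔭]
    exact mem_zpowers_pow_of_coprime g hg h𝔭.2 σ

end cyclic

end Fermat.Agent.Cheb.helper40
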