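import Mathlib
import Fermat.Agent.Cheb.helper40_ChebCyclic

/-!
# Weak Chebotarev (helper40), part 4: the number field form

For a finite Galois extension `K/ℚ`, an element `g ∈ Gal(K/ℚ)` and a finite set `S` of primes
there are a prime `ℓ ∉ S`, a prime `P` of `K` above `ℓ` with trivial inertia group and an
arithmetic Frobenius `φ` at `P` which generates the same cyclic subgroup as `g`:

* `exists_prime_frob_generates`.
-/

set_option autoImplicit false
set_option linter.unusedSectionVars false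
set_option linter.unusedVariables false
set_option linter.style.haveILetI false

open NumberField Ideal IsDedekindDomain
open scoped Pointwise Classical

namespace Fermat.Agent.Cheb.helper40

open Fermat.Agent.S14

section ramified

variable (K : Type*) [Field K] [NumberField K] [IsGalois ℚ K]

/-- The primes of `K` with nontrivial inertia group in `Gal(K/ℚ)`. -/
def inertSet : Set (HeightOneSpectrum (𝓞 K)) :=
  {P | ∃ τ : Gal(K/ℚ), τ ≠ 1 ∧ ∀ x : 𝓞 K, τ • x - x ∈ P.asIdeal}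

theorem finite_inertSet : (inertSet K).Finite := by
  have h1 : ∀ v : HeightOneSpectrum (𝓞 ℚ),
      {w : HeightOneSpectrum (𝓞 K) | w.asIdeal ∈ v.asIdeal.primesOver (𝓞 K)}.Finite :=
    fun v => Set.Finite.preimage (fun _ _ _ _ h => HeightOneSpectrum.ext h)
      (Algebra.QuasiFinite.finite_primesOver v.asIdeal)
  refine ((helper52.ramSet_finite ℚ K).biUnion fun v _ => h1 v).subset ?_
  rintro P ⟨τ, hτ1, hτ⟩
  have hv : P.under (𝓞 ℚ) ∈ helper52.ramSet ℚ K := by
    by_contra hne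
    have he : helper52.eNum ℚ K (P.under (𝓞 ℚ)) = 1 := by
      by_contra h
      exact hne h
    haveI := P.isPrime
    exact hτ1 (inertia_trivial_of_eNum_eq_one ℚ K (P.under (𝓞 ℚ)) he P.asIdeal rfl τ hτ)
  refine Set.mem_biUnion hv ?_
  exact ⟨P.isPrime, ⟨rfl⟩⟩

end ramified

section main

/-- **Weak Chebotarev, number field form.** -/
theorem exists_prime_frob_generates (K : Type*) [Field K] [NumberField K] [IsGalois ℚ K]
    (g : Gal(K/ℚ)) (S : Finset ℕ) :
    ∃ (ℓ : ℕ) (P : Ideal (𝓞 K)) (φ : Gal(K/ℚ)), ℓ.Prime ∧ ℓ ∉ S ∧ P.IsPrime ∧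
      (ℓ : 𝓞 K) ∈ P ∧
      (∀ τ : Gal(K/ℚ), (∀ x : 𝓞 K, τ • x - x ∈ P) → τ = 1) ∧
      (∀ x : 𝓞 K, φ • x - x ^ ℓ ∈ P) ∧
      Subgroup.zpowers φ = Subgroup.zpowers g := by
  obtain ⟨E, hE⟩ : ∃ E : IntermediateField ℚ K,
      E = IntermediateField.fixedField (Subgroup.zpowers g) := ⟨_, rfl⟩
  have hfix : E.fixingSubgroup = Subgroup.zpowers g := by
    rw [hE]
    exact IntermediateField.fixingSubgroup_fixedField _
  have hgmem : g ∈ E.fixingSubgroup := by
    rw [hfix]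
    exact Subgroup.mem_zpowers g
  -- the generator of `Gal(K/E)`
  have hg' : ∀ σ : Gal(K/E), σ ∈ Subgroup.zpowers
      (IntermediateField.fixingSubgroupEquiv E ⟨g, hgmem⟩) := by
    intro σ
    obtain ⟨⟨τ, hτ⟩, rfl⟩ := (IntermediateField.fixingSubgroupEquiv E).surjective σ
    have hτ' : τ ∈ Subgroup.zpowers g := by
      rw [← hfix]
      exact hτ
    obtain ⟨z, hz⟩ := Subgroup.mem_zpowers_iff.mp hτ'
    refine Subgroup.mem_zpowers_iff.mpr ⟨z, ?_⟩
    rw [← map_zpow]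
    congr 1
    exact Subtype.ext hz
  -- the exceptional set
  have hExc1 : {𝔭 : HeightOneSpectrum (𝓞 E) | absNorm 𝔭.asIdeal ∈ S}.Finite := by
    have h1 : ∀ n : ℕ, {𝔭 : HeightOneSpectrum (𝓞 E) | absNorm 𝔭.asIdeal = n}.Finite := by
      intro n
      have h := Ideal.finite_setOfPred_absNorm_eq (S := 𝓞 E) n
      have hinj : Function.Injective (fun P : HeightOneSpectrum (𝓞 E) => P.asIdeal) :=
        fun P Q hPQ => HeightOneSpectrum.ext hPQ
      exact h.preimage hinj.injOn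
    refine ((Finset.finite_toSet S).biUnion fun n _ => h1 n).subset ?_
    intro 𝔭 h𝔭
    exact Set.mem_biUnion (Finset.mem_coe.mpr h𝔭) rfl
  have hExc2 : ((fun P : HeightOneSpectrum (𝓞 K) => P.under (𝓞 E)) '' inertSet K).Finite :=
    (finite_inertSet K).image _
  obtain ⟨𝔭, h𝔭Exc, h𝔭prime, hgen⟩ := exists_prime_frobAt_generates
    (IntermediateField.fixingSubgroupEquiv E ⟨g, hgmem⟩) hg' _ (hExc1.union hExc2)
  obtain ⟨P, hPprime, hP0, hP, hfrob⟩ :=
    helper12.exists_isArithFrobAt_frobAt E K 𝔭.asIdeal 𝔭.ne_bot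
  haveI := hPprime
  -- the Frobenius as an element of `Gal(K/ℚ)`
  refine ⟨absNorm 𝔭.asIdeal, P,
    ((IntermediateField.fixingSubgroupEquiv E).symm (frobAt E K 𝔭.asIdeal) : Gal(K/ℚ)),
    h𝔭prime, ?_, hPprime, ?_, ?_, ?_, ?_⟩
  · intro h
    exact h𝔭Exc (Or.inl h)
  · have h1 : ((absNorm 𝔭.asIdeal : ℕ) : 𝓞 E) ∈ 𝔭.asIdeal := Ideal.absNorm_mem 𝔭.asIdeal
    have h2 : ((absNorm 𝔭.asIdeal : ℕ) : 𝓞 E) ∈ P.under (𝓞 E) := hP ▸ h1
    rw [Ideal.under_def, Ideal.mem_comap, map_natCast] at h2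
    exact h2
  · intro τ hτ
    by_contra hτ1
    apply h𝔭Exc
    refine Or.inr ⟨⟨P, hPprime, hP0⟩, ⟨τ, hτ1, hτ⟩, ?_⟩
    exact HeightOneSpectrum.ext hP
  · intro x
    have h1 := hfrob x
    have h2 : Nat.card (𝓞 E ⧸ P.under (𝓞 E)) = absNorm 𝔭.asIdeal := by
      rw [hP, Ideal.absNorm_apply, Submodule.cardQuot_apply]
    change frobAt E K 𝔭.asIdeal • x - x ^ Nat.card (𝓞 E ⧸ P.under (𝓞 E)) ∈ P at h1
    rw [h2] at h1
    exact h1
  · apply le_antisymm
    · rw [Subgroup.zpowers_le, ← hfix]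
      exact ((IntermediateField.fixingSubgroupEquiv E).symm (frobAt E K 𝔭.asIdeal)).2
    · rw [Subgroup.zpowers_le]
      obtain ⟨z, hz⟩ := Subgroup.mem_zpowers_iff.mp
        (hgen (IntermediateField.fixingSubgroupEquiv E ⟨g, hgmem⟩))
      refine Subgroup.mem_zpowers_iff.mpr ⟨z, ?_⟩
      have h1 := congrArg (IntermediateField.fixingSubgroupEquiv E).symm hz
      rw [map_zpow, MulEquiv.symm_apply_apply] at h1
      have h2 := congrArg (fun x : E.fixingSubgroup => (x : Gal(K/ℚ))) h1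
      simpa using h2

end main

end Fermat.Agent.Cheb.helper40
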