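import Mathlib
import Fermat.Agent.S14.helper91_Dictionary
import Fermat.Agent.S14.helper91_FieldObstruction

/-!
# CHEB-W (2): weak Chebotarev in the vocabulary of the Prelude (helper91)

`NumberFieldStatement` is the number-field form of the weak Chebotarev theorem (every cyclic
subgroup of the Galois group of a finite Galois extension of `ℚ` is generated by a Frobenius
element at an unramified prime outside any finite set).  From it we deduce the statement for
valuation subrings of `ℚ̄` and Frobenius elements in `Gal(ℚ̄/ℚ)`: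

* `chebW_field` : for a number field `L` Galois over `ℚ` with a map to `ℚ̄`;
* `chebW_intermediateField` : for a finite normal intermediate field of `ℚ̄ / ℚ`;
* `chebW_open` : for an open normal subgroup of `Gal(ℚ̄/ℚ)`.
-/

set_option autoImplicit false
set_option linter.unusedSectionVars false
set_option linter.style.haveILetI false

open scoped Pointwise NumberField

namespace Fermat.Agent.Cheb.helper91

open Fermat.Agent.S54.helper91 Fermat.Agent.S14.helper91

/-- The number-field form of the weak Chebotarev theorem. -/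
def NumberFieldStatement : Prop :=
  ∀ (K : Type) [Field K] [NumberField K] [IsGalois ℚ K] (g : Gal(K/ℚ)) (S : Finset ℕ),
    ∃ (ℓ : ℕ) (P : Ideal (𝓞 K)) (φ : Gal(K/ℚ)), ℓ.Prime ∧ ℓ ∉ S ∧ P.IsPrime ∧ (ℓ : 𝓞 K) ∈ P ∧
      (∀ τ : Gal(K/ℚ), (∀ x : 𝓞 K, τ • x - x ∈ P) → τ = 1) ∧
      (∀ x : 𝓞 K, φ • x - x ^ ℓ ∈ P) ∧
      Subgroup.zpowers φ = Subgroup.zpowers g

/-- **Weak Chebotarev**, field form: `L` is a number field, Galois over `ℚ`, with a map to `ℚ̄`.
Every `g ∈ Gal(ℚ̄/ℚ)` generates, on `L`, the same subgroup as a Frobenius element `φ` at a place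
`A` of `ℚ̄` over a prime `ℓ ∉ S` at which `L` is unramified. -/
theorem chebW_field (hN : NumberFieldStatement) (L : Type) [Field L] [NumberField L]
    [Algebra L Qbar] [IsGalois ℚ L] (g : GQ) (S : Finset ℕ) :
    ∃ (ℓ : ℕ) (A : ValuationSubring Qbar) (φ : GQ), ℓ.Prime ∧ ℓ ∉ S ∧ A.LiesOverPrime ℓ ∧
      A.IsFrobeniusAt φ ℓ ∧
      (∀ τ ∈ A.inertiaSubgroupIn ℚ, AlgEquiv.restrictNormalHom L τ = 1) ∧
      Subgroup.zpowers (AlgEquiv.restrictNormalHom L φ) =
        Subgroup.zpowers (AlgEquiv.restrictNormalHom L g) := by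
  obtain ⟨ℓ, P, φ₀, hℓ, hℓS, hP, hℓP, hinert, hfrob, hgen⟩ :=
    hN L (AlgEquiv.restrictNormalHom L g) S
  have hP0 : P ≠ ⊥ := by
    rintro rfl
    rw [Ideal.mem_bot] at hℓP
    have : (ℓ : 𝓞 L) ≠ 0 := Nat.cast_ne_zero.mpr hℓ.ne_zero
    exact this hℓP
  haveI : P.IsMaximal := Ring.DimensionLEOne.maximalOfPrime hP0 hP
  obtain ⟨A, hA⟩ := exists_primeOf_eq L P
  have hAℓ : A.LiesOverPrime ℓ := liesOverPrime_of_natCast_mem L A (by rw [hA]; exact hℓP)
  obtain ⟨φ, hφ⟩ := exists_isFrobeniusAt_of_liesOver A hℓ hAℓ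
  obtain ⟨hφP, hφF⟩ := restrict_frobenius L A hφ
  rw [hA] at hφP hφF
  have hφeq : AlgEquiv.restrictNormalHom L φ = φ₀ := by
    set ψ := AlgEquiv.restrictNormalHom L φ with hψ
    have h1 : ψ⁻¹ * φ₀ = 1 := by
      apply hinert
      intro x
      have h2 : φ₀ • x - ψ • x ∈ P := by
        have := P.sub_mem (hfrob x) (hφF x)
        simpa using this
      have h3 : ψ⁻¹ • (φ₀ • x - ψ • x) ∈ ψ⁻¹ • P := Ideal.smul_mem_pointwise_smul _ _ _ h2
      have h4 : ψ⁻¹ • P = P := by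
        conv_lhs => rw [← hφP]
        rw [inv_smul_smul]
      rw [h4, smul_sub, inv_smul_smul, ← mul_smul] at h3
      exact h3
    have := congrArg (fun t => ψ * t) h1
    simpa using this.symm
  refine ⟨ℓ, A, φ, hℓ, hℓS, hAℓ, hφ, fun τ hτ => ?_, ?_⟩
  · apply hinert
    intro x
    have := restrict_mem_inertia L A hτ x
    rw [hA] at this
    exact this
  · rw [hφeq, hgen]

/-- **Weak Chebotarev** for a finite normal intermediate field `L₀` of `ℚ̄ / ℚ`. -/
theorem chebW_intermediateField (hN : NumberFieldStatement) (L₀ : IntermediateField ℚ Qbar)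
    [FiniteDimensional ℚ L₀] [Normal ℚ L₀] (g : GQ) (S : Finset ℕ) :
    ∃ (ℓ : ℕ) (A : ValuationSubring Qbar) (φ : GQ), ℓ.Prime ∧ ℓ ∉ S ∧ A.LiesOverPrime ℓ ∧
      A.IsFrobeniusAt φ ℓ ∧
      (∀ τ ∈ A.inertiaSubgroupIn ℚ, AlgEquiv.restrictNormalHom L₀ τ = 1) ∧
      Subgroup.zpowers (AlgEquiv.restrictNormalHom L₀ φ) =
        Subgroup.zpowers (AlgEquiv.restrictNormalHom L₀ g) := by
  haveI : NumberField L₀ := ⟨⟩
  haveI : IsGalois ℚ L₀ := ⟨⟩
  exact chebW_field hN L₀ g S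

/-- In a group, if `a` and `b` generate the same subgroup and `b` has finite order, then `b` is
a power of `a` with a natural exponent. -/
theorem exists_pow_eq_of_zpowers_eq {G : Type*} [Group G] [Finite G] {a b : G}
    (h : Subgroup.zpowers a = Subgroup.zpowers b) : ∃ j : ℕ, a ^ j = b := by
  have hb : b ∈ Subgroup.zpowers a := by
    rw [h]
    exact Subgroup.mem_zpowers b
  rw [← mem_powers_iff_mem_zpowers] at hb
  exact hb

/-- **Weak Chebotarev** for an open normal subgroup `U` of `Gal(ℚ̄/ℚ)`: every `g` is, modulo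
`U`, a power of a Frobenius element `φ` at a place `A` over a prime `ℓ ∉ S` whose inertia group
is contained in `U`, and `φ` is a power of `g` modulo `U`. -/
theorem chebW_open (hN : NumberFieldStatement) (U : Subgroup GQ) [hn : U.Normal]
    (hU : IsOpen (U : Set GQ)) (g : GQ) (S : Finset ℕ) :
    ∃ (ℓ : ℕ) (A : ValuationSubring Qbar) (φ : GQ), ℓ.Prime ∧ ℓ ∉ S ∧ A.LiesOverPrime ℓ ∧
      A.IsFrobeniusAt φ ℓ ∧ A.inertiaSubgroupIn ℚ ≤ U ∧
      (∃ j : ℕ, φ ^ j * g⁻¹ ∈ U) ∧ (∃ k : ℕ, g ^ k * φ⁻¹ ∈ U) := by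
  haveI := finiteDimensional_fixedField U hU
  haveI := isGalois_fixedField U hU
  have hfix := fixingSubgroup_fixedField_of_isOpen U hU
  set L₀ := IntermediateField.fixedField U with hL₀
  haveI : Normal ℚ L₀ := IsGalois.to_normal
  obtain ⟨ℓ, A, φ, hℓ, hℓS, hA, hφ, hin, hgen⟩ := chebW_intermediateField hN L₀ g S
  haveI : Finite (L₀ ≃ₐ[ℚ] L₀) := inferInstance
  have key : ∀ σ : GQ, AlgEquiv.restrictNormalHom L₀ σ = 1 → σ ∈ U := by
    intro σ hσ
    rw [← hfix]
    exact mem_fixingSubgroup_of_restrictNormalHom_eq_one L₀ hσ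
  refine ⟨ℓ, A, φ, hℓ, hℓS, hA, hφ, fun τ hτ => key τ (hin τ hτ), ?_, ?_⟩
  · obtain ⟨j, hj⟩ := exists_pow_eq_of_zpowers_eq hgen
    refine ⟨j, key _ ?_⟩
    rw [map_mul, map_pow, map_inv, hj, mul_inv_cancel]
  · obtain ⟨k, hk⟩ := exists_pow_eq_of_zpowers_eq hgen.symm
    refine ⟨k, key _ ?_⟩
    rw [map_mul, map_pow, map_inv, hk, mul_inv_cancel]

end Fermat.Agent.Cheb.helper91
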