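import Mathlib
import Fermat.Agent.Cheb.helper91_ChebW

/-!
# CHEB-W (3): weak Chebotarev for arbitrary finite subextensions of `ℚ̄ / ℚ` (helper91)

The form matching the Prelude's `GaloisActionIsAdicContinuous`: levels are finite-dimensional
intermediate fields `L` of `ℚ̄ / ℚ` (not necessarily normal), and "congruent modulo the level"
means "agreeing on `L`".
-/

set_option autoImplicit false
set_option linter.unusedSectionVars false
set_option linter.style.haveILetI false

open scoped Pointwise NumberField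

namespace Fermat.Agent.Cheb.helper91

open Fermat.Agent.S54.helper91 Fermat.Agent.S14.helper91

/-- **Weak Chebotarev**, finite-level form.  For every finite subextension `L` of `ℚ̄ / ℚ`, every
`g ∈ Gal(ℚ̄/ℚ)` and every finite set `S` of primes there are a prime `ℓ ∉ S`, a place `A` of `ℚ̄`
over `ℓ` whose inertia group fixes `L` pointwise, a Frobenius element `φ` at `A`, and exponents
`j`, `k` such that `φ ^ j` agrees with `g` on `L` and `g ^ k` agrees with `φ` on `L`. -/
theorem chebW_finite (hN : NumberFieldStatement) (L : IntermediateField ℚ Qbar)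
    [FiniteDimensional ℚ L] (g : GQ) (S : Finset ℕ) :
    ∃ (ℓ : ℕ) (A : ValuationSubring Qbar) (φ : GQ), ℓ.Prime ∧ ℓ ∉ S ∧ A.LiesOverPrime ℓ ∧
      A.IsFrobeniusAt φ ℓ ∧
      (∀ τ ∈ A.inertiaSubgroupIn ℚ, ∀ x ∈ L, τ x = x) ∧
      (∃ j : ℕ, ∀ x ∈ L, (φ ^ j) x = g x) ∧ (∃ k : ℕ, ∀ x ∈ L, (g ^ k) x = φ x) := by
  haveI := normal_Qbar
  haveI := isAlgebraic_Qbar
  set L' : IntermediateField ℚ Qbar := IntermediateField.normalClosure ℚ L Qbar with hL'
  haveI : Normal ℚ L' := normalClosure.normal ℚ L Qbar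
  haveI : FiniteDimensional ℚ L' := normalClosure.is_finiteDimensional ℚ L Qbar
  have hle : L ≤ L' := IntermediateField.le_normalClosure L
  obtain ⟨ℓ, A, φ, hℓ, hℓS, hA, hφ, hin, hgen⟩ := chebW_intermediateField hN L' g S
  haveI : Finite (L' ≃ₐ[ℚ] L') := inferInstance
  refine ⟨ℓ, A, φ, hℓ, hℓS, hA, hφ, fun τ hτ x hx => ?_, ?_, ?_⟩
  · have h1 := hin τ hτ
    have h2 := restrictNormalHom_coe L' τ ⟨x, hle hx⟩
    rw [h1] at h2
    exact h2.symm
  · obtain ⟨j, hj⟩ := exists_pow_eq_of_zpowers_eq hgen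
    refine ⟨j, fun x hx => ?_⟩
    have h1 := restrictNormalHom_coe L' (φ ^ j) ⟨x, hle hx⟩
    have h2 := restrictNormalHom_coe L' g ⟨x, hle hx⟩
    rw [map_pow, hj] at h1
    rw [← h1, ← h2]
  · obtain ⟨k, hk⟩ := exists_pow_eq_of_zpowers_eq hgen.symm
    refine ⟨k, fun x hx => ?_⟩
    have h1 := restrictNormalHom_coe L' (g ^ k) ⟨x, hle hx⟩
    have h2 := restrictNormalHom_coe L' φ ⟨x, hle hx⟩
    rw [map_pow, hk] at h1
    rw [← h1, ← h2]

end Fermat.Agent.Cheb.helper91
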