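import Mathlib
import Fermat.Agent.Cheb.helper40_ChebWeak
import Fermat.Agent.Cheb.helper91_ChebW
import Fermat.Agent.Cheb.helper91_ChebWFinite

/-!
# CHEB-W: unconditional weak Chebotarev in the Prelude vocabulary (helper40)

Wiring of the number-field statement `helper40.exists_prime_frob_generates` into the
conditional translations of helper91 (`chebW_field`, `chebW_intermediateField`, `chebW_open`,
`chebW_finite`).  Everything here is UNCONDITIONAL.
-/

set_option autoImplicit false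
set_option linter.unusedSectionVars false

open scoped Pointwise NumberField

namespace Fermat.Agent.Cheb.helper40

open Fermat.Agent.S54.helper91 Fermat.Agent.S14.helper91

/-- The number-field statement of helper91's interface, proved. -/
theorem numberFieldStatement : Fermat.Agent.Cheb.helper91.NumberFieldStatement :=
  fun K _ _ _ g S => exists_prime_frob_generates K g S

/-- **Weak Chebotarev**, field form, unconditional. -/
theorem chebW_field_uncond (L : Type) [Field L] [NumberField L]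
    [Algebra L Qbar] [IsGalois ℚ L] (g : GQ) (S : Finset ℕ) :
    ∃ (ℓ : ℕ) (A : ValuationSubring Qbar) (φ : GQ), ℓ.Prime ∧ ℓ ∉ S ∧ A.LiesOverPrime ℓ ∧
      A.IsFrobeniusAt φ ℓ ∧
      (∀ τ ∈ A.inertiaSubgroupIn ℚ, AlgEquiv.restrictNormalHom L τ = 1) ∧
      Subgroup.zpowers (AlgEquiv.restrictNormalHom L φ) =
        Subgroup.zpowers (AlgEquiv.restrictNormalHom L g) :=
  Fermat.Agent.Cheb.helper91.chebW_field numberFieldStatement L g S

/-- **Weak Chebotarev**, finite normal intermediate field form, unconditional. -/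
theorem chebW_intermediateField_uncond (L₀ : IntermediateField ℚ Qbar)
    [FiniteDimensional ℚ L₀] [Normal ℚ L₀] (g : GQ) (S : Finset ℕ) :
    ∃ (ℓ : ℕ) (A : ValuationSubring Qbar) (φ : GQ), ℓ.Prime ∧ ℓ ∉ S ∧ A.LiesOverPrime ℓ ∧
      A.IsFrobeniusAt φ ℓ ∧
      (∀ τ ∈ A.inertiaSubgroupIn ℚ, AlgEquiv.restrictNormalHom L₀ τ = 1) ∧
      Subgroup.zpowers (AlgEquiv.restrictNormalHom L₀ φ) =
        Subgroup.zpowers (AlgEquiv.restrictNormalHom L₀ g) :=
  Fermat.Agent.Cheb.helper91.chebW_intermediateField numberFieldStatement L₀ g S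

/-- **Weak Chebotarev**, open normal subgroup form, unconditional. -/
theorem chebW_open_uncond (U : Subgroup GQ) [U.Normal] (hU : IsOpen (U : Set GQ))
    (g : GQ) (S : Finset ℕ) :
    ∃ (ℓ : ℕ) (A : ValuationSubring Qbar) (φ : GQ), ℓ.Prime ∧ ℓ ∉ S ∧ A.LiesOverPrime ℓ ∧
      A.IsFrobeniusAt φ ℓ ∧ A.inertiaSubgroupIn ℚ ≤ U ∧
      (∃ j : ℕ, φ ^ j * g⁻¹ ∈ U) ∧ (∃ k : ℕ, g ^ k * φ⁻¹ ∈ U) :=
  Fermat.Agent.Cheb.helper91.chebW_open numberFieldStatement U hU g S

/-- **Weak Chebotarev**, finite-level form (levels = finite-dimensional intermediate fields,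
not necessarily normal), unconditional. -/
theorem chebW_finite_uncond (L : IntermediateField ℚ Qbar)
    [FiniteDimensional ℚ L] (g : GQ) (S : Finset ℕ) :
    ∃ (ℓ : ℕ) (A : ValuationSubring Qbar) (φ : GQ), ℓ.Prime ∧ ℓ ∉ S ∧ A.LiesOverPrime ℓ ∧
      A.IsFrobeniusAt φ ℓ ∧
      (∀ τ ∈ A.inertiaSubgroupIn ℚ, ∀ x ∈ L, τ x = x) ∧
      (∃ j : ℕ, ∀ x ∈ L, (φ ^ j) x = g x) ∧ (∃ k : ℕ, ∀ x ∈ L, (g ^ k) x = φ x) :=
  Fermat.Agent.Cheb.helper91.chebW_finite numberFieldStatement L g S

end Fermat.Agent.Cheb.helper40
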