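import Mathlib

/-!
# CHEB-W-MASS: mass induction over the subgroups of a finite cyclic group

If a family of nonnegative weights `w i s` indexed by `i : ι`, each `i` carrying a subgroup
`D i` of a finite cyclic group `G`, has for every subgroup `H` the mass
`∑_{D i ≤ H} w i s = (1/[G:H]) log (1/(s-1)) + O(1)` as `s → 1⁺`, then the indices with
`D i = ⊤` have unbounded mass; in particular some `i` outside any set `E` of bounded mass
has `D i = ⊤`.
-/

set_option autoImplicit false
set_option linter.style.haveILetI false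

namespace Fermat.Agent.Cheb.helper61

open scoped BigOperators

/-- Partition of a sum over `{i | D i ≤ H}` according to the value of `D i`. -/
lemma tsum_le_eq_sum_tsum_eq {ι : Type*} {L : Type*} [PartialOrder L] [Fintype L]
    [DecidableLE L] (f : ι → ℝ) (hf : Summable f) (D : ι → L) (H : L) :
    ∑' i : {i // D i ≤ H}, f i.1 =
      ∑ H' ∈ (Finset.univ : Finset L) with H' ≤ H, ∑' i : {i // D i = H'}, f i.1 := by
  classical
  have h1 : ∑' i : {i // D i ≤ H}, f i.1 = ∑' i, Set.indicator {i | D i ≤ H} f i :=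
    tsum_subtype {i | D i ≤ H} f
  have h2 : ∀ H', ∑' i : {i // D i = H'}, f i.1 = ∑' i, Set.indicator {i | D i = H'} f i :=
    fun H' => tsum_subtype {i | D i = H'} f
  rw [h1]
  simp_rw [h2]
  rw [← Summable.tsum_finsetSum (fun H' _ => hf.indicator _)]
  congr 1
  funext i
  simp only [Set.indicator_apply, Set.mem_ofPred_eq]
  rw [Finset.sum_ite_eq]
  simp

/-- Number of generators of a subgroup. -/
noncomputable def genCount {G : Type*} [Group G] [Fintype G] (H : Subgroup G) : ℕ := by
  classical
  exact (Finset.univ.filter (fun x : G => Subgroup.zpowers x = H)).card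

lemma card_eq_sum_genCount {G : Type*} [Group G] [Fintype G] [Fintype (Subgroup G)]
    [DecidableLE (Subgroup G)] (H : Subgroup G) :
    Nat.card H = ∑ H' ∈ (Finset.univ : Finset (Subgroup G)) with H' ≤ H, genCount H' := by
  classical
  have h1 : Nat.card H = (Finset.univ.filter (fun x : G => x ∈ H)).card := by
    rw [Nat.card_eq_fintype_card, Fintype.card_subtype]
  rw [h1]
  rw [Finset.card_eq_sum_card_fiberwise (f := fun x : G => Subgroup.zpowers x)
    (t := Finset.univ.filter (fun H' : Subgroup G => H' ≤ H))]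
  · refine Finset.sum_congr rfl fun H' hH' => ?_
    unfold genCount
    congr 1
    ext x
    simp only [Finset.mem_filter, Finset.mem_univ, true_and]
    constructor
    · rintro ⟨_, h⟩
      exact h
    · intro h
      refine ⟨?_, h⟩
      rw [← Subgroup.zpowers_le, h]
      exact (Finset.mem_filter.1 hH').2
  · intro x hx
    simp only [Finset.coe_filter, Finset.mem_univ, true_and, Set.mem_ofPred_eq] at hx ⊢
    exact Subgroup.zpowers_le.2 hx

lemma genCount_top_pos {G : Type*} [Group G] [Fintype G] [IsCyclic G] :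
    0 < genCount (⊤ : Subgroup G) := by
  classical
  obtain ⟨g, hg⟩ := IsCyclic.exists_generator (α := G)
  unfold genCount
  apply Finset.card_pos.2
  refine ⟨g, ?_⟩
  simp only [Finset.mem_filter, Finset.mem_univ, true_and]
  exact (Subgroup.eq_top_iff' _).2 hg

theorem exists_top_of_mass {ι : Type*} {G : Type*} [Group G] [Finite G] [IsCyclic G]
    (w : ι → ℝ → ℝ) (hw0 : ∀ i s, 0 ≤ w i s) (hws : ∀ s : ℝ, 1 < s → Summable (fun i => w i s))
    (D : ι → Subgroup G)
    (hmass : ∀ H : Subgroup G, ∃ B : ℝ, ∀ s : ℝ, 1 < s → s ≤ 2 →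
      |(H.index : ℝ) * ∑' i : {i // D i ≤ H}, w i.1 s - Real.log (1 / (s - 1))| ≤ B)
    (E : Set ι) (hE : ∃ C : ℝ, ∀ s : ℝ, 1 < s → s ≤ 2 → ∑' i : E, w i.1 s ≤ C) :
    ∃ i, i ∉ E ∧ D i = ⊤ := by
  classical
  letI : Fintype G := Fintype.ofFinite G
  letI : Fintype (Subgroup G) := Fintype.ofFinite _
  -- the mass of the indices with `D i = H`
  set T : Subgroup G → ℝ → ℝ := fun H s => ∑' i : {i // D i = H}, w i.1 s with hT
  -- step (3): induction
  have hind : ∀ H : Subgroup G, ∃ B : ℝ, ∀ s : ℝ, 1 < s → s ≤ 2 →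
      |(Nat.card G : ℝ) * T H s - (genCount H : ℝ) * Real.log (1 / (s - 1))| ≤ B := by
    intro H
    induction H using WellFoundedLT.induction with
    | _ H ih =>
      have ih' : ∀ H' : Subgroup G, ∃ B : ℝ, H' < H → ∀ s : ℝ, 1 < s → s ≤ 2 →
          |(Nat.card G : ℝ) * T H' s - (genCount H' : ℝ) * Real.log (1 / (s - 1))| ≤ B := by
        intro H'
        by_cases h : H' < H
        · obtain ⟨B, hB⟩ := ih H' h
          exact ⟨B, fun _ => hB⟩
        · exact ⟨0, fun h' => absurd h' h⟩
      choose Bf hBf using ih'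
      obtain ⟨B₀, hB₀⟩ := hmass H
      refine ⟨(Nat.card H : ℝ) * B₀ + ∑ H' ∈ (Finset.univ : Finset (Subgroup G)) with H' < H,
        Bf H', fun s hs1 hs2 => ?_⟩
      have hsplit : (Finset.univ.filter (fun H' : Subgroup G => H' ≤ H)) =
          insert H (Finset.univ.filter (fun H' : Subgroup G => H' < H)) := by
        ext H'
        simp only [Finset.mem_filter, Finset.mem_univ, true_and, Finset.mem_insert]
        rw [le_iff_eq_or_lt]
      have hnotmem : H ∉ Finset.univ.filter (fun H' : Subgroup G => H' < H) := by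
        simp
      have hU := tsum_le_eq_sum_tsum_eq (fun i => w i s) (hws s hs1) D H
      rw [hsplit, Finset.sum_insert hnotmem] at hU
      have hc := card_eq_sum_genCount H
      rw [hsplit, Finset.sum_insert hnotmem] at hc
      have hidx : (Nat.card G : ℝ) = (H.index : ℝ) * (Nat.card H : ℝ) := by
        rw [← Nat.cast_mul, Subgroup.index_mul_card]
      set l := Real.log (1 / (s - 1)) with hl
      set U := ∑' i : {i // D i ≤ H}, w i.1 s with hUdef
      have hmain := hB₀ s hs1 hs2
      have key : (Nat.card G : ℝ) * T H s - (genCount H : ℝ) * l =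
          (Nat.card H : ℝ) * ((H.index : ℝ) * U - l) -
            ∑ H' ∈ (Finset.univ : Finset (Subgroup G)) with H' < H,
              ((Nat.card G : ℝ) * T H' s - (genCount H' : ℝ) * l) := by
        have hc' : (Nat.card H : ℝ) = (genCount H : ℝ) +
            ∑ H' ∈ (Finset.univ : Finset (Subgroup G)) with H' < H, (genCount H' : ℝ) := by
          rw [hc]; push_cast; rfl
        have hU' : U = T H s + ∑ H' ∈ (Finset.univ : Finset (Subgroup G)) with H' < H, T H' s :=
          hU
        rw [Finset.sum_sub_distrib, ← Finset.mul_sum, ← Finset.sum_mul]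
        have e1 : (Nat.card H : ℝ) * ((H.index : ℝ) * U - l) =
            (Nat.card G : ℝ) * U - (Nat.card H : ℝ) * l := by
          rw [hidx]; ring
        rw [e1, hU', hc']
        ring
      rw [key]
      calc |(Nat.card H : ℝ) * ((H.index : ℝ) * U - l) -
            ∑ H' ∈ (Finset.univ : Finset (Subgroup G)) with H' < H,
              ((Nat.card G : ℝ) * T H' s - (genCount H' : ℝ) * l)|
          ≤ |(Nat.card H : ℝ) * ((H.index : ℝ) * U - l)| +
            |∑ H' ∈ (Finset.univ : Finset (Subgroup G)) with H' < H,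
              ((Nat.card G : ℝ) * T H' s - (genCount H' : ℝ) * l)| := abs_sub _ _
        _ ≤ (Nat.card H : ℝ) * B₀ + ∑ H' ∈ (Finset.univ : Finset (Subgroup G)) with H' < H,
              Bf H' := by
          apply add_le_add
          · rw [abs_mul, Nat.abs_cast]
            exact mul_le_mul_of_nonneg_left hmain (Nat.cast_nonneg _)
          · refine (Finset.abs_sum_le_sum_abs _ _).trans (Finset.sum_le_sum fun H' hH' => ?_)
            exact hBf H' (Finset.mem_filter.1 hH').2 s hs1 hs2
  -- step (4): conclusion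
  obtain ⟨B, hB⟩ := hind ⊤
  obtain ⟨C, hC⟩ := hE
  by_contra hcon
  push Not at hcon
  have hsub : ∀ i, D i = ⊤ → i ∈ E := fun i hi => by
    by_contra hiE
    exact hcon i hiE hi
  have hTle : ∀ s : ℝ, 1 < s → s ≤ 2 → T ⊤ s ≤ C := by
    intro s hs1 hs2
    refine le_trans ?_ (hC s hs1 hs2)
    have h1 : T ⊤ s = ∑' i, Set.indicator {i | D i = ⊤} (fun i => w i s) i :=
      tsum_subtype {i | D i = ⊤} (fun i => w i s)
    have h2 : ∑' i : E, w i.1 s = ∑' i, Set.indicator E (fun i => w i s) i :=
      tsum_subtype E (fun i => w i s)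
    rw [h1, h2]
    refine Summable.tsum_le_tsum (fun i => ?_) ((hws s hs1).indicator _) ((hws s hs1).indicator _)
    exact Set.indicator_le_indicator_of_subset (fun i hi => hsub i hi) (fun i => hw0 i s) i
  -- choose `s` close to `1`
  set t : ℝ := |(Nat.card G : ℝ) * C + B| + 1 with ht
  have ht0 : 0 < t := by positivity
  set s : ℝ := 1 + Real.exp (-t) with hs
  have hs1 : 1 < s := by
    have := Real.exp_pos (-t)
    linarith
  have hs2 : s ≤ 2 := by
    have : Real.exp (-t) ≤ 1 := Real.exp_le_one_iff.2 (by linarith)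
    linarith
  have hlog : Real.log (1 / (s - 1)) = t := by
    rw [hs, add_sub_cancel_left, one_div, ← Real.exp_neg, neg_neg, Real.log_exp]
  have h3 := hB s hs1 hs2
  rw [hlog] at h3
  have h4 := (abs_le.1 h3).1
  have h5 := hTle s hs1 hs2
  have hgen : (1 : ℝ) ≤ (genCount (⊤ : Subgroup G) : ℝ) := by
    exact_mod_cast genCount_top_pos (G := G)
  have hn : (0 : ℝ) ≤ (Nat.card G : ℝ) := Nat.cast_nonneg _
  have h6 : (Nat.card G : ℝ) * T ⊤ s ≤ (Nat.card G : ℝ) * C :=
    mul_le_mul_of_nonneg_left h5 hn
  have h7 : t ≤ (genCount (⊤ : Subgroup G) : ℝ) * t := by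
    nlinarith
  have h8 : (Nat.card G : ℝ) * C + B ≤ |(Nat.card G : ℝ) * C + B| := le_abs_self _
  linarith

end Fermat.Agent.Cheb.helper61
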