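import Mathlib
import Fermat.Agent.Cheb.helper91_ChebWFinite
import Fermat.Agent.Cheb.helper40_ChebWeak

/-!
# CHEB-W (4): the weak Chebotarev theorem, unconditional (helper91)

Wiring of the number-field statement `helper40.exists_prime_frob_generates` into the
Prelude-vocabulary forms of `helper91_ChebW` / `helper91_ChebWFinite`.
-/

set_option autoImplicit false
set_option linter.unusedSectionVars false
set_option linter.style.haveILetI false

open scoped Pointwise NumberField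

namespace Fermat.Agent.Cheb.helper91

open Fermat.Agent.S54.helper91 Fermat.Agent.S14.helper91

/-- The number-field form of the weak Chebotarev theorem (proved by helper40). -/
theorem numberFieldStatement : NumberFieldStatement :=
  fun K _ _ _ g S => Fermat.Agent.Cheb.helper40.exists_prime_frob_generates K g S

/-- **Weak Chebotarev** for a number field `L`, Galois over `ℚ`, with a map to `ℚ̄`. -/
theorem weakChebotarev_field (L : Type) [Field L] [NumberField L]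
    [Algebra L Qbar] [IsGalois ℚ L] (g : GQ) (S : Finset ℕ) :
    ∃ (ℓ : ℕ) (A : ValuationSubring Qbar) (φ : GQ), ℓ.Prime ∧ ℓ ∉ S ∧ A.LiesOverPrime ℓ ∧
      A.IsFrobeniusAt φ ℓ ∧
      (∀ τ ∈ A.inertiaSubgroupIn ℚ, AlgEquiv.restrictNormalHom L τ = 1) ∧
      Subgroup.zpowers (AlgEquiv.restrictNormalHom L φ) =
        Subgroup.zpowers (AlgEquiv.restrictNormalHom L g) :=
  chebW_field numberFieldStatement L g S

/-- **Weak Chebotarev** for a finite normal intermediate field of `ℚ̄ / ℚ`. -/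
theorem weakChebotarev_intermediateField (L₀ : IntermediateField ℚ Qbar)
    [FiniteDimensional ℚ L₀] [Normal ℚ L₀] (g : GQ) (S : Finset ℕ) :
    ∃ (ℓ : ℕ) (A : ValuationSubring Qbar) (φ : GQ), ℓ.Prime ∧ ℓ ∉ S ∧ A.LiesOverPrime ℓ ∧
      A.IsFrobeniusAt φ ℓ ∧
      (∀ τ ∈ A.inertiaSubgroupIn ℚ, AlgEquiv.restrictNormalHom L₀ τ = 1) ∧
      Subgroup.zpowers (AlgEquiv.restrictNormalHom L₀ φ) =
        Subgroup.zpowers (AlgEquiv.restrictNormalHom L₀ g) :=
  chebW_intermediateField numberFieldStatement L₀ g S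

/-- **Weak Chebotarev** for an open normal subgroup of `Gal(ℚ̄/ℚ)`. -/
theorem weakChebotarev_open (U : Subgroup GQ) [U.Normal]
    (hU : IsOpen (U : Set GQ)) (g : GQ) (S : Finset ℕ) :
    ∃ (ℓ : ℕ) (A : ValuationSubring Qbar) (φ : GQ), ℓ.Prime ∧ ℓ ∉ S ∧ A.LiesOverPrime ℓ ∧
      A.IsFrobeniusAt φ ℓ ∧ A.inertiaSubgroupIn ℚ ≤ U ∧
      (∃ j : ℕ, φ ^ j * g⁻¹ ∈ U) ∧ (∃ k : ℕ, g ^ k * φ⁻¹ ∈ U) :=
  chebW_open numberFieldStatement U hU g S

/-- **Weak Chebotarev**, finite-level form (levels = finite subextensions of `ℚ̄ / ℚ`). -/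
theorem weakChebotarev_finite (L : IntermediateField ℚ Qbar)
    [FiniteDimensional ℚ L] (g : GQ) (S : Finset ℕ) :
    ∃ (ℓ : ℕ) (A : ValuationSubring Qbar) (φ : GQ), ℓ.Prime ∧ ℓ ∉ S ∧ A.LiesOverPrime ℓ ∧
      A.IsFrobeniusAt φ ℓ ∧
      (∀ τ ∈ A.inertiaSubgroupIn ℚ, ∀ x ∈ L, τ x = x) ∧
      (∃ j : ℕ, ∀ x ∈ L, (φ ^ j) x = g x) ∧ (∃ k : ℕ, ∀ x ∈ L, (g ^ k) x = φ x) :=
  chebW_finite numberFieldStatement L g S

end Fermat.Agent.Cheb.helper91
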