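import Mathlib
import Fermat.Agent.S14.helper34_Defs

/-!
# CHEB-W (1): completely split primes and decomposition groups (helper91)

For a Galois extension `L / K` of number fields, a normal subgroup `H` of `Gal(L/K)` with fixed
field `M`, a prime `𝔭` of `K` and a prime `P` of `L` above it:
`𝔭` splits completely in `M` iff the decomposition group of `P` is contained in `H`.
-/

set_option autoImplicit false
set_option linter.unusedSectionVars false
set_option linter.style.haveILetI false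

open NumberField Ideal IsDedekindDomain MulAction
open scoped Pointwise

namespace Fermat.Agent.Cheb.helper91

open Fermat.Agent.S14

variable (K L : Type*) [Field K] [NumberField K] [Field L] [NumberField L] [Algebra K L]
  [IsGalois K L]

/-- The fixed field of a subgroup, as an intermediate field. -/
abbrev fixedFld (H : Subgroup Gal(L/K)) : IntermediateField K L :=
  FixedPoints.intermediateField H

instance isGaloisGroup_fixedFld (H : Subgroup Gal(L/K)) :
    IsGaloisGroup H (𝓞 (fixedFld K L H)) (𝓞 L) :=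
  IsGaloisGroup.of_isFractionRing H (𝓞 (fixedFld K L H)) (𝓞 L) (fixedFld K L H) L

instance isGalois_fixedFld (H : Subgroup Gal(L/K)) [H.Normal] : IsGalois K (fixedFld K L H) :=
  IsGalois.of_fixedField_normal_subgroup H

/-- The decomposition group in `H` is the intersection with `H` of the one in `Gal(L/K)`. -/
lemma stabilizer_subgroup_eq (H : Subgroup Gal(L/K)) (P : Ideal (𝓞 L)) :
    stabilizer H P = (stabilizer Gal(L/K) P).subgroupOf H := by
  ext σ
  simp [Subgroup.mem_subgroupOf, mem_stabilizer_iff, Subgroup.smul_def]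

lemma card_stabilizer_subgroup (H : Subgroup Gal(L/K)) (P : Ideal (𝓞 L)) :
    Nat.card (stabilizer H P) = Nat.card ((stabilizer Gal(L/K) P ⊓ H : Subgroup Gal(L/K))) := by
  rw [stabilizer_subgroup_eq, ← Subgroup.inf_subgroupOf_right]
  exact Nat.card_congr (Subgroup.subgroupOfEquivOfLe inf_le_right).toEquiv

/-- **Lemma A.** `𝔭` splits completely in the fixed field of the normal subgroup `H` iff the
decomposition group of a prime `P` above `𝔭` is contained in `H`. -/
theorem mem_splitSet_iff_stabilizer_le (H : Subgroup Gal(L/K)) [H.Normal]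
    (𝔭 : HeightOneSpectrum (𝓞 K)) (P : Ideal (𝓞 L)) [P.IsPrime] [P.LiesOver 𝔭.asIdeal] :
    𝔭 ∈ helper34.splitSet K (fixedFld K L H) ↔ stabilizer Gal(L/K) P ≤ H := by
  classical
  haveI := 𝔭.isPrime
  set M := fixedFld K L H with hMdef
  set 𝔮 : Ideal (𝓞 M) := P.under (𝓞 M) with h𝔮
  haveI : 𝔮.IsPrime := Ideal.IsPrime.under (𝓞 M) P
  haveI : P.LiesOver 𝔮 := ⟨rfl⟩
  haveI : 𝔮.LiesOver 𝔭.asIdeal := Ideal.LiesOver.tower_bot P 𝔮 𝔭.asIdeal
  have hG : Nat.card (stabilizer Gal(L/K) P) =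
      P.ramificationIdx (𝓞 K) * P.inertiaDeg (𝓞 K) := by
    rw [card_stabilizer_eq 𝔭.asIdeal P, ramificationIdxIn_eq_ramificationIdx 𝔭.asIdeal P Gal(L/K),
      inertiaDegIn_eq_inertiaDeg 𝔭.asIdeal P Gal(L/K)]
  have hH : Nat.card (stabilizer H P) = P.ramificationIdx (𝓞 M) * P.inertiaDeg (𝓞 M) := by
    have := card_stabilizer_eq (G := H) 𝔮 P
    rw [ramificationIdxIn_eq_ramificationIdx 𝔮 P H, inertiaDegIn_eq_inertiaDeg 𝔮 P H] at this
    exact this
  have he := ramificationIdx_tower (R := 𝓞 K) 𝔮 P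
  have hf := inertiaDeg_tower (R := 𝓞 K) 𝔮 P
  have hM : (𝔭.asIdeal.primesOver (𝓞 M)).ncard *
      (𝔮.ramificationIdx (𝓞 K) * 𝔮.inertiaDeg (𝓞 K)) = Module.finrank K M := by
    have := ncard_primesOver_mul_ramificationIdxIn_mul_inertiaDegIn 𝔭.asIdeal (𝓞 M) Gal(M/K)
    rwa [ramificationIdxIn_eq_ramificationIdx 𝔭.asIdeal 𝔮 Gal(M/K),
      inertiaDegIn_eq_inertiaDeg 𝔭.asIdeal 𝔮 Gal(M/K), IsGalois.card_aut_eq_finrank] at this
  have hpos1 : 0 < P.ramificationIdx (𝓞 M) := ramificationIdx_pos P (𝓞 M)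
  have hpos2 : 0 < P.inertiaDeg (𝓞 M) := inertiaDeg_pos P (𝓞 M)
  have hpos3 : 0 < 𝔮.ramificationIdx (𝓞 K) := ramificationIdx_pos 𝔮 (𝓞 K)
  have hpos4 : 0 < 𝔮.inertiaDeg (𝓞 K) := inertiaDeg_pos 𝔮 (𝓞 K)
  have hfr : 0 < Module.finrank K M := Module.finrank_pos
  have hcard := card_stabilizer_subgroup K L H P
  -- step 1: split iff `e f = 1` for `𝔮 / 𝔭`
  have h1 : 𝔭 ∈ helper34.splitSet K M ↔ 𝔮.ramificationIdx (𝓞 K) * 𝔮.inertiaDeg (𝓞 K) = 1 := by
    change (𝔭.asIdeal.primesOver (𝓞 M)).ncard = Module.finrank K M ↔ _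
    constructor
    · intro h
      rw [h] at hM
      exact (Nat.eq_of_mul_eq_mul_left hfr (by rw [hM, mul_one]))
    · intro h
      rw [h, mul_one] at hM
      exact hM
  -- step 2: `e f = 1` iff the two stabilizers have the same cardinality
  have h2 : 𝔮.ramificationIdx (𝓞 K) * 𝔮.inertiaDeg (𝓞 K) = 1 ↔
      Nat.card (stabilizer Gal(L/K) P) = Nat.card (stabilizer H P) := by
    rw [hG, hH, he, hf]
    have hpos : 0 < P.ramificationIdx (𝓞 M) * P.inertiaDeg (𝓞 M) := Nat.mul_pos hpos1 hpos2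
    constructor
    · intro h
      calc 𝔮.ramificationIdx (𝓞 K) * P.ramificationIdx (𝓞 M) *
            (𝔮.inertiaDeg (𝓞 K) * P.inertiaDeg (𝓞 M))
          = (𝔮.ramificationIdx (𝓞 K) * 𝔮.inertiaDeg (𝓞 K)) *
            (P.ramificationIdx (𝓞 M) * P.inertiaDeg (𝓞 M)) := by ring
        _ = P.ramificationIdx (𝓞 M) * P.inertiaDeg (𝓞 M) := by rw [h, one_mul]
    · intro h
      have h' : (𝔮.ramificationIdx (𝓞 K) * 𝔮.inertiaDeg (𝓞 K)) *
          (P.ramificationIdx (𝓞 M) * P.inertiaDeg (𝓞 M)) =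
          1 * (P.ramificationIdx (𝓞 M) * P.inertiaDeg (𝓞 M)) := by
        rw [one_mul]
        calc (𝔮.ramificationIdx (𝓞 K) * 𝔮.inertiaDeg (𝓞 K)) *
              (P.ramificationIdx (𝓞 M) * P.inertiaDeg (𝓞 M))
            = 𝔮.ramificationIdx (𝓞 K) * P.ramificationIdx (𝓞 M) *
              (𝔮.inertiaDeg (𝓞 K) * P.inertiaDeg (𝓞 M)) := by ring
          _ = P.ramificationIdx (𝓞 M) * P.inertiaDeg (𝓞 M) := h
      exact Nat.eq_of_mul_eq_mul_right hpos h'
  -- step 3: equal cardinalities iff containment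
  have h3 : Nat.card (stabilizer Gal(L/K) P) = Nat.card (stabilizer H P) ↔
      stabilizer Gal(L/K) P ≤ H := by
    rw [hcard]
    constructor
    · intro h
      have hle : (stabilizer Gal(L/K) P ⊓ H : Subgroup Gal(L/K)) ≤ stabilizer Gal(L/K) P :=
        inf_le_left
      have heq := Subgroup.eq_of_le_of_card_ge hle h.le
      rw [← heq]
      exact inf_le_right
    · intro h
      rw [inf_eq_left.mpr h]
  exact h1.trans (h2.trans h3)

end Fermat.Agent.Cheb.helper91
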